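import Fermat.Agent.S35.H47.NewProjFamily
import Fermat.Agent.S35.H91.DictNewPow

/-!
# S35 from the single model leaf `H27.FrobModelStatement` (helper47)

`b2newFamily_of_frobModel : H27.FrobModelStatement → H95.B2newFamily` (helper91's
`b2newStatement_of_frobModel`, repackaged) and `s35_of_frobModel`: the conclusion of the frozen
S35, in its binder shape, from `H27.FrobModelStatement` alone.
-/

set_option autoImplicit false
open Polynomial
open CuspForm ModularCurve AlgebraicCurve CongruenceSubgroup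

namespace Fermat.Agent.S35.H47

/-- (B2new) as helper95's family, from the model leaf of S35-GEO. -/
theorem b2newFamily_of_frobModel (hmodel : Fermat.Agent.S35.H27.FrobModelStatement) :
    Fermat.Agent.S35.H95.B2newFamily := by
  intro N q p _ _ hq hp hpq hqN
  exact Fermat.Agent.S35.H91.b2newStatement_of_frobModel hmodel N q p hq hp (Ne.symm hpq) hqN

/-- **S35 from the model leaf alone**, in the binder shape of the frozen statement. -/
theorem s35_of_frobModel (hmodel : Fermat.Agent.S35.H27.FrobModelStatement)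
    {M : ℕ} [NeZero M] {g : CuspForm (CongruenceSubgroup.Gamma0 M) 2} (hg : g.IsNewform)
    (lam : ℕ) [Fact lam.Prime]
    (S : Finset ℕ)
    (O' : Type) [CommRing O'] [IsDomain O'] [IsDiscreteValuationRing O']
    [IsAdicComplete (IsLocalRing.maximalIdeal O') O'] [Finite (IsLocalRing.ResidueField O')]
    [CharZero O'] (hlamO' : (lam : O') ∈ IsLocalRing.maximalIdeal O')
    (chig : CuspForm.heckeAlgebra M 2 (↑S : Set ℕ) →+* ℂ)
    (hchig : ∀ (ℓ : ℕ) (hℓ : ℓ.Prime) (hℓM : ¬ ℓ ∣ M) (hℓS : ℓ ∉ (↑S : Set ℕ)),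
      chig (CuspForm.heckeAlgebra.T hℓ hℓM hℓS) = ModularFormClass.qCoeff g ℓ)
    (iota : chig.range →+* O')
    (hlamS : lam ∈ S) (hMS : ∀ q : ℕ, q.Prime → q ∣ M → q ∈ S) :
    ∃ (O'' : Type) (_ : CommRing O'') (_ : IsDomain O'') (_ : IsDiscreteValuationRing O'')
      (_ : IsAdicComplete (IsLocalRing.maximalIdeal O'') O'') (_ : Finite (IsLocalRing.ResidueField O''))
      (_ : CharZero O'') (_ : Algebra O' O'') (_ : Module.Finite O' O'') (_ : IsLocalHom (algebraMap O' O'')),
      Function.Injective (algebraMap O' O'') ∧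
      ∃ ρ : GaloisRepAdic O'',
        (∀ (ℓ : ℕ) (hℓ : ℓ.Prime) (hℓM : ¬ ℓ ∣ M) (hℓS : ℓ ∉ (↑S : Set ℕ)),
          ∀ A : ValuationSubring (AlgebraicClosure ℚ), A.LiesOverPrime ℓ →
            ∀ σ : AlgebraicClosure ℚ ≃ₐ[ℚ] AlgebraicClosure ℚ, A.IsFrobeniusAt σ ℓ →
              LinearMap.charpoly (ρ.ρ σ) =
                X ^ 2 - C (algebraMap O' O'' ((iota.comp chig.rangeRestrict) (CuspForm.heckeAlgebra.T hℓ hℓM hℓS))) * X
                  + C ((ℓ : O''))) ∧
        (∀ q : ℕ, q.Prime → q ≠ lam → q ∣ M → ¬ q ^ 2 ∣ M →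
          ∀ A : ValuationSubring (AlgebraicClosure ℚ), A.LiesOverPrime q →
            ∀ σ : AlgebraicClosure ℚ ≃ₐ[ℚ] AlgebraicClosure ℚ, A.IsFrobeniusAt σ q →
              LinearMap.charpoly (ρ.ρ σ) = X ^ 2 - C ((q : O'') + 1) * X + C ((q : O'')) ∨
              LinearMap.charpoly (ρ.ρ σ) = X ^ 2 + C ((q : O'') + 1) * X + C ((q : O''))) :=
  s35_of_b2newFamily (b2newFamily_of_frobModel hmodel) hg lam S O' hlamO' chig hchig iota
    hlamS hMS

end Fermat.Agent.S35.H47
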