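import Mathlib

/-!
# S35-ALG (NP1), helper47: eigen-functionals for a character killing the annihilator

`R` a commutative ring, `Λ` a finite `R`-module, `L` a field and `χ : R →+* L` a ring
homomorphism which vanishes on the annihilator of `Λ`.  Then there is a nonzero additive map
`Θ : Λ → L` with `Θ (r • x) = χ r * Θ x`.

Proof: `𝔭 = ker χ` is a prime containing the annihilator, so `Λ_𝔭 ≠ 0`; by Nakayama
`Λ_𝔭 / 𝔭 Λ_𝔭` is a nonzero vector space over the residue field `κ(𝔭)`, which embeds in `L` through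
`χ`; take a nonzero linear functional.
-/

set_option autoImplicit false

namespace Fermat.Agent.S35.H47

open IsLocalRing

/-- **Eigen-functionals.**  A character `χ : R →+* L` into a field killing the annihilator of a
finite `R`-module `Λ` is the eigencharacter of a nonzero additive functional `Λ → L`. -/
theorem exists_eigen_functional {R Λ L : Type*} [CommRing R] [AddCommGroup Λ] [Module R Λ]
    [Module.Finite R Λ] [Field L] (χ : R →+* L)
    (h : ∀ r : R, (∀ x : Λ, r • x = 0) → χ r = 0) :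
    ∃ Θ : Λ →+ L, Θ ≠ 0 ∧ ∀ (r : R) (x : Λ), Θ (r • x) = χ r * Θ x := by
  classical
  let 𝔭 : Ideal R := RingHom.ker χ
  have h𝔭 : 𝔭.IsPrime := RingHom.ker_isPrime χ
  let P : PrimeSpectrum R := ⟨𝔭, h𝔭⟩
  have hann : Module.annihilator R Λ ≤ 𝔭 := fun r hr =>
    (RingHom.mem_ker).2 (h r fun x => Module.mem_annihilator.1 hr x)
  have hsupp : P ∈ Module.support R Λ := Module.mem_support_iff_of_finite.2 hann
  have hnt : Nontrivial (LocalizedModule 𝔭.primeCompl Λ) := Module.mem_support_iff.1 hsupp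
  -- notation
  let Rp := Localization.AtPrime 𝔭
  let Mp := LocalizedModule 𝔭.primeCompl Λ
  let 𝔪 : Ideal Rp := maximalIdeal Rp
  let N : Submodule Rp Mp := 𝔪 • (⊤ : Submodule Rp Mp)
  -- Nakayama
  have hN : N ≠ ⊤ := by
    intro hN
    have h1 : (⊤ : Submodule Rp Mp) = ⊥ :=
      Submodule.eq_bot_of_le_smul_of_le_jacobson_bot 𝔪 ⊤ Module.Finite.fg_top
        (le_of_eq hN.symm) (IsLocalRing.maximalIdeal_le_jacobson _)
    obtain ⟨a, b, hab⟩ := hnt
    have ha : a ∈ (⊥ : Submodule Rp Mp) := h1 ▸ Submodule.mem_top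
    have hb : b ∈ (⊥ : Submodule Rp Mp) := h1 ▸ Submodule.mem_top
    exact hab (((Submodule.mem_bot Rp).1 ha).trans ((Submodule.mem_bot Rp).1 hb).symm)
  let k := Rp ⧸ 𝔪
  let _ : Field k := Ideal.Quotient.field 𝔪
  have hQ : Nontrivial (Mp ⧸ N) :=
    Submodule.Quotient.nontrivial_iff.2 hN
  obtain ⟨q₀, hq₀⟩ := exists_ne (0 : Mp ⧸ N)
  obtain ⟨f, hf⟩ : ∃ f : Module.Dual k (Mp ⧸ N), f q₀ ≠ 0 := by
    by_contra hcon
    push Not at hcon
    exact hq₀ ((Module.forall_dual_apply_eq_zero_iff k q₀).1 hcon)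
  -- the ring homomorphisms `φ : R_𝔭 → L` and `ι : κ(𝔭) → L`
  have hunit : ∀ y : 𝔭.primeCompl, IsUnit (χ y) := fun y =>
    isUnit_iff_ne_zero.2 fun h0 => y.2 (RingHom.mem_ker.2 h0)
  let φ : Rp →+* L := IsLocalization.lift (M := 𝔭.primeCompl) hunit
  have hφ : ∀ r : R, φ (algebraMap R Rp r) = χ r := fun r => IsLocalization.lift_eq hunit r
  have hφ𝔪 : ∀ a ∈ 𝔪, φ a = 0 := by
    intro a ha
    obtain ⟨⟨r, s⟩, rfl⟩ := IsLocalization.mk'_surjective 𝔭.primeCompl a
    have hr : r ∈ 𝔭 := (IsLocalization.AtPrime.mk'_mem_maximal_iff Rp 𝔭 r s).1 ha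
    have h1 : φ (IsLocalization.mk' Rp r s) = 0 := by
      rw [IsLocalization.lift_mk'_spec, RingHom.mem_ker.1 hr, mul_zero]
    exact h1
  let ι : k →+* L := Ideal.Quotient.lift 𝔪 φ hφ𝔪
  have hι : ∀ a : Rp, ι (Ideal.Quotient.mk 𝔪 a) = φ a := fun a => Ideal.Quotient.lift_mk 𝔪 φ hφ𝔪
  let j : Λ →ₗ[R] Mp := LocalizedModule.mkLinearMap 𝔭.primeCompl Λ
  let Θ : Λ →+ L := ι.toAddMonoidHom.comp
    (f.toAddMonoidHom.comp ((N.mkQ).toAddMonoidHom.comp j.toAddMonoidHom))
  have hΘ : ∀ x : Λ, Θ x = ι (f (N.mkQ (j x))) := fun x => rfl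
  -- `k`-linearity on classes
  have hsmul : ∀ (a : Rp) (y : Mp), f (N.mkQ (a • y)) = Ideal.Quotient.mk 𝔪 a * f (N.mkQ y) := by
    intro a y
    have h1 : N.mkQ (a • y) = (Ideal.Quotient.mk 𝔪 a : k) • N.mkQ y := rfl
    rw [h1, map_smul, smul_eq_mul]
  refine ⟨Θ, ?_, ?_⟩
  · intro h0
    apply hf
    -- `f` vanishes on all classes
    have hall : ∀ y : Mp, f (N.mkQ y) = 0 := by
      intro y
      induction y using LocalizedModule.induction_on with
      | h x s =>
        have h1 : LocalizedModule.mk x s =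
            ((Localization.mk (1 : R) s : Localization 𝔭.primeCompl) : Rp) • j x := by
          have hj : j x = LocalizedModule.mk x 1 := rfl
          rw [hj, LocalizedModule.mk_smul_mk, one_smul, mul_one]
        have h2 : ι (f (N.mkQ (j x))) = 0 := by
          rw [← hΘ, h0]; rfl
        have h3 : f (N.mkQ (j x)) = 0 := (map_eq_zero ι).1 h2
        rw [h1, hsmul, h3, mul_zero]
    obtain ⟨y, rfl⟩ := N.mkQ_surjective q₀
    exact hall y
  · intro r x
    have h1 : j (r • x) = (algebraMap R Rp r) • j x := by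
      rw [map_smul, algebraMap_smul]
    rw [hΘ, hΘ, h1, hsmul, map_mul, hι, hφ]

/-- **Eigen-functionals on a span.**  `D` an `R`-module which is noetherian as an abelian group,
`ev : G → D` additive, `χ : R →+* ℂ` a character which vanishes on every `r` killing all `ev γ`.
Then there is an additive `Θ : D → ℂ`, nonzero on some `ev γ`, with
`Θ (r • ev γ) = χ r * Θ (ev γ)`. -/
theorem exists_functional_of_span {R D G : Type*} [CommRing R] [AddCommGroup D] [Module R D]
    [AddZeroClass G] (hD : IsNoetherian ℤ D) (ev : G →+ D) (χ : R →+* ℂ)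
    (h : ∀ r : R, (∀ γ : G, r • ev γ = 0) → χ r = 0) :
    ∃ Θ : D →+ ℂ, (∃ γ : G, Θ (ev γ) ≠ 0) ∧
      ∀ (r : R) (γ : G), Θ (r • ev γ) = χ r * Θ (ev γ) := by
  classical
  let E : Submodule R D := Submodule.span R (Set.range ev)
  have hEfg : E.FG :=
    Submodule.FG.of_restrictScalars ℤ (IsNoetherian.noetherian (E.restrictScalars ℤ))
  have hEfin : Module.Finite R E := Module.Finite.iff_fg.2 hEfg
  have hevE : ∀ γ : G, ev γ ∈ E := fun γ => Submodule.subset_span ⟨γ, rfl⟩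
  have hann : ∀ r : R, (∀ x : E, r • x = 0) → χ r = 0 := fun r hr =>
    h r fun γ => congrArg Subtype.val (hr ⟨ev γ, hevE γ⟩)
  obtain ⟨Θ₀, hΘ0, hΘ⟩ := exists_eigen_functional (R := R) (Λ := E) χ hann
  obtain ⟨Θ, hΘext⟩ := (Module.Baer.of_divisible ℂ).extension_property_addMonoidHom
    E.subtype.toAddMonoidHom Subtype.val_injective Θ₀
  have hΘE : ∀ (e : D) (he : e ∈ E), Θ e = Θ₀ ⟨e, he⟩ := fun e he =>
    DFunLike.congr_fun hΘext ⟨e, he⟩
  refine ⟨Θ, ?_, ?_⟩
  · by_contra hcon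
    push Not at hcon
    apply hΘ0
    have hall : ∀ (e : D) (he : e ∈ E), Θ₀ ⟨e, he⟩ = 0 := by
      intro e he
      induction he using Submodule.span_induction with
      | mem x hx =>
        obtain ⟨γ, rfl⟩ := hx
        rw [← hΘE]
        exact hcon γ
      | zero => exact map_zero Θ₀
      | add x y hx hy ihx ihy =>
        have h1 : (⟨x + y, E.add_mem hx hy⟩ : E) = ⟨x, hx⟩ + ⟨y, hy⟩ := rfl
        rw [h1, map_add, ihx, ihy, add_zero]
      | smul r x hx ih =>
        have h1 : (⟨r • x, E.smul_mem r hx⟩ : E) = r • ⟨x, hx⟩ := rfl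
        rw [h1, hΘ, ih, mul_zero]
    exact AddMonoidHom.ext fun e => hall e.1 e.2
  · intro r γ
    rw [hΘE _ (E.smul_mem r (hevE γ)), hΘE _ (hevE γ)]
    exact hΘ r ⟨ev γ, hevE γ⟩

end Fermat.Agent.S35.H47
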