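import Fermat.Agent.S35.H47.Occ
import Fermat.Prelude.Def_CuspForm_Newforms

/-!
# S35-ALG (NP1), helper47: the new-projector polynomial

`g` a newform of level `M`, `S ⊇ primes(M)` finite, `chig` its eigencharacter on
`heckeAlgebra M 2 S`, `M' ∣ M` a proper divisor.  Then there is a polynomial `P` in the Hecke
operators `T_ℓ`, `ℓ ∉ S`, with `P(T) = 0` on `S₂(Γ₀(M'))` and `chig (P(T)) ≠ 0`.

Proof: otherwise `chig` descends to a character of `heckeAlgebra M' 2 S`, which by (OCC) is the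
eigensystem of a normalised eigenform `g'` of level `M'`; strong multiplicity one (SMO, a
hypothesis here: helper75's leaf) gives `a_ℓ(g') = a_ℓ(g)` for all `ℓ ∤ M`, against `IsNewform`.
-/

set_option autoImplicit false

open CongruenceSubgroup ModularCurve CuspForm
open scoped MatrixGroups
open ModularFormClass (qCoeff)

namespace Fermat.Agent.S35.H47

/-- The primes outside `S`. -/
def outPrimes (S : Set ℕ) : Set Nat.Primes := {ℓ | (ℓ : ℕ) ∉ S}

section Eval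

variable (N : ℕ) [NeZero N] (S : Set ℕ) (hN : ∀ j : outPrimes S, ¬ ((j : Nat.Primes) : ℕ) ∣ N)

/-- Evaluation of polynomials in the variables `ℓ ∉ S` at the Hecke operators `T_ℓ` of level `N`
(all `ℓ ∉ S` are prime to `N`). -/
noncomputable def evalOut : MvPolynomial (outPrimes S) ℤ →ₐ[ℤ] heckeAlgebra N 2 S :=
  MvPolynomial.aeval fun j : outPrimes S =>
    (heckeAlgebra.T (j : Nat.Primes).2 (hN j) j.2 : heckeAlgebra N 2 S)

theorem evalOut_X (j : outPrimes S) :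
    evalOut N S hN (MvPolynomial.X j) = heckeAlgebra.T (j : Nat.Primes).2 (hN j) j.2 :=
  MvPolynomial.aeval_X _ j

/-- The operator of `evalOut p` is the operator of the Prelude evaluation of the renamed
polynomial. -/
theorem coe_evalOut (p : MvPolynomial (outPrimes S) ℤ) :
    ((evalOut N S hN p : heckeAlgebra N 2 S) : Module.End ℂ (CuspForm (Gamma0 N) 2)) =
      ((heckeEvalForms N 2 (MvPolynomial.rename ((↑) : outPrimes S → Nat.Primes) p) :
        heckeAlgebra N 2 ∅) : Module.End ℂ (CuspForm (Gamma0 N) 2)) := by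
  let φ₁ : MvPolynomial (outPrimes S) ℤ →+* Module.End ℂ (CuspForm (Gamma0 N) 2) :=
    (heckeAlgebra N 2 S).val.toRingHom.comp (evalOut N S hN).toRingHom
  let φ₂ : MvPolynomial (outPrimes S) ℤ →+* Module.End ℂ (CuspForm (Gamma0 N) 2) :=
    (heckeAlgebra N 2 ∅).val.toRingHom.comp
      ((heckeEvalForms N 2).comp
        (MvPolynomial.rename ((↑) : outPrimes S → Nat.Primes) :
          MvPolynomial (outPrimes S) ℤ →ₐ[ℤ] MvPolynomial Nat.Primes ℤ).toRingHom)
  have h : φ₁ = φ₂ := by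
    refine MvPolynomial.ringHom_ext (fun r => ?_) (fun j => ?_)
    · show ((evalOut N S hN (MvPolynomial.C r) : heckeAlgebra N 2 S) :
          Module.End ℂ (CuspForm (Gamma0 N) 2)) =
        ((heckeEvalForms N 2 (MvPolynomial.rename ((↑) : outPrimes S → Nat.Primes)
          (MvPolynomial.C r)) : heckeAlgebra N 2 ∅) : Module.End ℂ (CuspForm (Gamma0 N) 2))
      rw [MvPolynomial.rename_C, heckeEvalForms_C, evalOut, MvPolynomial.aeval_C]
      rfl
    · show ((evalOut N S hN (MvPolynomial.X j) : heckeAlgebra N 2 S) :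
          Module.End ℂ (CuspForm (Gamma0 N) 2)) =
        ((heckeEvalForms N 2 (MvPolynomial.rename ((↑) : outPrimes S → Nat.Primes)
          (MvPolynomial.X j)) : heckeAlgebra N 2 ∅) : Module.End ℂ (CuspForm (Gamma0 N) 2))
      rw [MvPolynomial.rename_X, evalOut_X]
      have h1 := heckeEvalForms_heckeGen_of_not_dvd (N := N) (k := 2) (hN j)
      rw [ModularCurve.heckeGen] at h1
      rw [h1]
      rfl
  exact DFunLike.congr_fun h p

/-- `evalOut` is surjective when `S` contains the primes of `N`. -/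
theorem evalOut_surjective (hNS : ∀ q : ℕ, q.Prime → q ∣ N → q ∈ S) :
    Function.Surjective (evalOut N S hN) := by
  rw [← AlgHom.range_eq_top, evalOut, ← Algebra.adjoin_range_eq_range_aeval]
  have h1 : Algebra.adjoin ℤ (((↑) : heckeAlgebra N 2 S → Module.End ℂ (CuspForm (Gamma0 N) 2)) ⁻¹'
      heckeGenerators N 2 S) = ⊤ := Algebra.adjoin_adjoin_coe_preimage
  rw [eq_top_iff, ← h1]
  refine Algebra.adjoin_mono ?_
  rintro x (⟨ℓ, hℓ, hℓN, hℓS, hx⟩ | ⟨q, hqN, hq, hqS, -⟩)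
  · exact ⟨⟨⟨ℓ, hℓ⟩, hℓS⟩, Subtype.ext hx.symm⟩
  · exact absurd (hNS q hq hqN) hqS

end Eval

/-- **(SMO)**, the statement of helper75's leaf (strong multiplicity one at the primes of `S`):
two normalised eigenforms of levels `M' ∣ M` whose prime coefficients agree outside a finite set
have the same coefficients at all primes not dividing `M`. -/
def SMOStatement : Prop :=
  ∀ {M M' : ℕ} [NeZero M] [NeZero M'], M' ∣ M →
    ∀ {g : CuspForm (Gamma0 M) 2} {g' : CuspForm (Gamma0 M') 2},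
      g.IsNormalizedEigenform → g'.IsNormalizedEigenform → ∀ S : Finset ℕ,
      (∀ ℓ : ℕ, ℓ.Prime → ℓ ∉ S → qCoeff g ℓ = qCoeff g' ℓ) →
      ∀ ℓ : ℕ, ℓ.Prime → ¬ ℓ ∣ M → qCoeff g ℓ = qCoeff g' ℓ

/-- Descent of a character along `evalOut`: if the character `chi ∘ evalOut_M` kills the kernel of
`evalOut_{M'}`, it descends to `heckeAlgebra M' 2 S`. -/
theorem exists_descended_char (M M' : ℕ) [NeZero M] [NeZero M'] (S : Set ℕ)
    (hNM : ∀ j : outPrimes S, ¬ ((j : Nat.Primes) : ℕ) ∣ M)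
    (hNM' : ∀ j : outPrimes S, ¬ ((j : Nat.Primes) : ℕ) ∣ M')
    (hM'S : ∀ q : ℕ, q.Prime → q ∣ M' → q ∈ S)
    (chi : heckeAlgebra M 2 S →+* ℂ)
    (hker : ∀ p : MvPolynomial (outPrimes S) ℤ,
      evalOut M' S hNM' p = 0 → chi (evalOut M S hNM p) = 0) :
    ∃ χ' : heckeAlgebra M' 2 S →+* ℂ, ∀ j : outPrimes S,
      χ' (heckeAlgebra.T (j : Nat.Primes).2 (hNM' j) j.2) =
        chi (heckeAlgebra.T (j : Nat.Primes).2 (hNM j) j.2) := by
  let f : MvPolynomial (outPrimes S) ℤ →+* heckeAlgebra M' 2 S := (evalOut M' S hNM').toRingHom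
  have hf : Function.Surjective f := evalOut_surjective M' S hNM' hM'S
  let gg : MvPolynomial (outPrimes S) ℤ →+* ℂ := chi.comp (evalOut M S hNM).toRingHom
  have hfg : RingHom.ker f ≤ RingHom.ker gg := fun p hp =>
    RingHom.mem_ker.2 (hker p (RingHom.mem_ker.1 hp))
  refine ⟨RingHom.liftOfSurjective f hf ⟨gg, hfg⟩, fun j => ?_⟩
  have h1 : f (MvPolynomial.X j) = heckeAlgebra.T (j : Nat.Primes).2 (hNM' j) j.2 :=
    evalOut_X M' S hNM' j
  have h2 : gg (MvPolynomial.X j) = chi (heckeAlgebra.T (j : Nat.Primes).2 (hNM j) j.2) :=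
    congrArg chi (evalOut_X M S hNM j)
  rw [← h1, ← h2]
  exact RingHom.liftOfSurjective_comp_apply f hf ⟨gg, hfg⟩ (MvPolynomial.X j)

/-- The Prelude evaluation of the renamed polynomial vanishes when `evalOut` does. -/
theorem heckeEvalForms_rename_eq_zero (N : ℕ) [NeZero N] (S : Set ℕ)
    (hN : ∀ j : outPrimes S, ¬ ((j : Nat.Primes) : ℕ) ∣ N) (p : MvPolynomial (outPrimes S) ℤ)
    (hp : evalOut N S hN p = 0) :
    heckeEvalForms N 2 (MvPolynomial.rename ((↑) : outPrimes S → Nat.Primes) p) = 0 := by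
  have h1 : ((evalOut N S hN p : heckeAlgebra N 2 S) : Module.End ℂ (CuspForm (Gamma0 N) 2)) = 0 := by
    rw [hp]
    exact ZeroMemClass.coe_zero _
  have h2 := (coe_evalOut N S hN p).symm.trans h1
  exact (ZeroMemClass.coe_eq_zero).1 h2

/-- **(NP1)**: the new-projector polynomial.  For a newform `g` of level `M` with eigencharacter
`chig` on `heckeAlgebra M 2 S` (`S ⊇ primes(M)` finite) and a proper divisor `M'` of `M` there is
a polynomial `P` in the `T_ℓ`, `ℓ ∉ S`, which vanishes on `S₂(Γ₀(M'))` and with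
`chig (P(T)) ≠ 0`. -/
theorem exists_newProj_poly (hSMO : SMOStatement) {M : ℕ} [NeZero M]
    {g : CuspForm (Gamma0 M) 2} (hg : g.IsNewform) (S : Finset ℕ)
    (hMS : ∀ q : ℕ, q.Prime → q ∣ M → q ∈ S)
    (chig : heckeAlgebra M 2 (↑S : Set ℕ) →+* ℂ)
    (hchig : ∀ (ℓ : ℕ) (hℓ : ℓ.Prime) (hℓM : ¬ ℓ ∣ M) (hℓS : ℓ ∉ (↑S : Set ℕ)),
      chig (heckeAlgebra.T hℓ hℓM hℓS) = qCoeff g ℓ)
    (M' : ℕ) [NeZero M'] (hM' : M' ∣ M) (hne : M' ≠ M) :
    ∃ P : ModularCurve.HeckeAlg,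
      P ∈ MvPolynomial.supported ℤ {ℓ : Nat.Primes | (ℓ : ℕ) ∉ S} ∧
      heckeEvalForms M' 2 P = 0 ∧
      ∃ h : heckeAlgebra M 2 (↑S : Set ℕ),
        (h : Module.End ℂ (CuspForm (Gamma0 M) 2)) =
          ((heckeEvalForms M 2 P : heckeAlgebra M 2 ∅) : Module.End ℂ (CuspForm (Gamma0 M) 2)) ∧
        chig h ≠ 0 := by
  classical
  have hJ : outPrimes (↑S : Set ℕ) = {ℓ : Nat.Primes | (ℓ : ℕ) ∉ S} := by
    ext ℓ
    simp [outPrimes]
  have hNM : ∀ j : outPrimes (↑S : Set ℕ), ¬ ((j : Nat.Primes) : ℕ) ∣ M := fun j hdvd =>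
    j.2 (Finset.mem_coe.2 (hMS _ (j : Nat.Primes).2 hdvd))
  have hNM' : ∀ j : outPrimes (↑S : Set ℕ), ¬ ((j : Nat.Primes) : ℕ) ∣ M' := fun j hdvd =>
    hNM j (hdvd.trans hM')
  have hM'S : ∀ q : ℕ, q.Prime → q ∣ M' → q ∈ (↑S : Set ℕ) := fun q hq hqM' =>
    Finset.mem_coe.2 (hMS q hq (hqM'.trans hM'))
  by_contra hcon
  have hker : ∀ p : MvPolynomial (outPrimes (↑S : Set ℕ)) ℤ,
      evalOut M' (↑S : Set ℕ) hNM' p = 0 → chig (evalOut M (↑S : Set ℕ) hNM p) = 0 := by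
    intro p hp
    by_contra hne0
    apply hcon
    refine ⟨MvPolynomial.rename ((↑) : outPrimes (↑S : Set ℕ) → Nat.Primes) p, ?_,
      heckeEvalForms_rename_eq_zero M' (↑S : Set ℕ) hNM' p hp,
      evalOut M (↑S : Set ℕ) hNM p, coe_evalOut M (↑S : Set ℕ) hNM p, hne0⟩
    rw [← hJ, MvPolynomial.supported_eq_range_rename]
    exact ⟨p, rfl⟩
  obtain ⟨χ', hχ'⟩ := exists_descended_char M M' (↑S : Set ℕ) hNM hNM' hM'S chig hker
  obtain ⟨g', hg', hg'eig⟩ := exists_eigenform_of_ringHom M' (↑S : Set ℕ) hM'S χ'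
  -- the coefficients agree outside `S`
  have hout : ∀ ℓ : ℕ, ℓ.Prime → ℓ ∉ S → qCoeff g ℓ = qCoeff g' ℓ := by
    intro ℓ hℓ hℓS
    let j : outPrimes (↑S : Set ℕ) := ⟨⟨ℓ, hℓ⟩, fun h => hℓS (Finset.mem_coe.1 h)⟩
    have h1 : qCoeff g' ℓ = χ' (heckeAlgebra.T hℓ (hNM' j) j.2) := hg'eig ℓ hℓ (hNM' j) j.2
    have h2 : χ' (heckeAlgebra.T hℓ (hNM' j) j.2) = chig (heckeAlgebra.T hℓ (hNM j) j.2) := hχ' j
    have h3 : chig (heckeAlgebra.T hℓ (hNM j) j.2) = qCoeff g ℓ := hchig ℓ hℓ (hNM j) j.2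
    rw [h1, h2, h3]
  have hall := hSMO hM' hg.1 hg' S hout
  exact hg.2 M' hM' hne ⟨g', hg', fun ℓ hℓ hℓM => (hall ℓ hℓ hℓM).symm⟩

end Fermat.Agent.S35.H47
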