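import Fermat.Agent.S35.H47.NP1
import Fermat.Agent.S35.H75.Smo

/-!
# S35-ALG (NP1), helper47: the new-projector polynomial, unconditional

`exists_newProj_poly` of `NP1.lean` with helper75's landed strong multiplicity one
(`S35/H75/Smo.lean`) plugged in.
-/

set_option autoImplicit false

open CongruenceSubgroup ModularCurve CuspForm
open scoped MatrixGroups
open ModularFormClass (qCoeff)

namespace Fermat.Agent.S35.H47

/-- (SMO) holds (helper75). -/
theorem smoStatement : SMOStatement := fun hM' _ _ hg hg' S h =>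
  Fermat.Agent.S35.H75.qCoeff_eq_of_forall_not_mem hM' hg hg' S h

/-- **(NP1), unconditional.**  For a newform `g` of level `M` with eigencharacter `chig` on
`heckeAlgebra M 2 S` (`S ⊇ primes(M)` finite) and a proper divisor `M'` of `M` there is a
polynomial `P` in the `T_ℓ`, `ℓ ∉ S`, which vanishes on `S₂(Γ₀(M'))` and with
`chig (P(T)) ≠ 0`. -/
theorem exists_newProj_poly_final {M : ℕ} [NeZero M]
    {g : CuspForm (Gamma0 M) 2} (hg : g.IsNewform) (S : Finset ℕ)
    (hMS : ∀ q : ℕ, q.Prime → q ∣ M → q ∈ S)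
    (chig : heckeAlgebra M 2 (↑S : Set ℕ) →+* ℂ)
    (hchig : ∀ (ℓ : ℕ) (hℓ : ℓ.Prime) (hℓM : ¬ ℓ ∣ M) (hℓS : ℓ ∉ (↑S : Set ℕ)),
      chig (heckeAlgebra.T hℓ hℓM hℓS) = qCoeff g ℓ)
    (M' : ℕ) [NeZero M'] (hM' : M' ∣ M) (hne : M' ≠ M) :
    ∃ P : ModularCurve.HeckeAlg,
      P ∈ MvPolynomial.supported ℤ {ℓ : Nat.Primes | (ℓ : ℕ) ∉ S} ∧
      heckeEvalForms M' 2 P = 0 ∧
      ∃ h : heckeAlgebra M 2 (↑S : Set ℕ),
        (h : Module.End ℂ (CuspForm (Gamma0 M) 2)) =
          ((heckeEvalForms M 2 P : heckeAlgebra M 2 ∅) : Module.End ℂ (CuspForm (Gamma0 M) 2)) ∧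
        chig h ≠ 0 :=
  exists_newProj_poly smoStatement hg S hMS chig hchig M' hM' hne

end Fermat.Agent.S35.H47
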