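import Fermat.Agent.S35.H47.NP1Final
import Fermat.Agent.S35.H90.Inst
import Fermat.Agent.S35.H91.IotaInj

/-!
# S35-ALG (NP1), helper47: the new-projector in the pair ring `Rr`

The consumer form of (NP1) for helper90's `KeyStatement` (`S35/H90/Top.lean`): the polynomial
`P` of `exists_newProj_poly_final` as elements of the pair rings
`Rr (TJ · S) (TH · S) ⊆ End (J₀(·)) × heckeAlgebra · 2 S` at BOTH levels `M` and `M' ∣ M`:

* `r ∈ Rr (TJ M S) (TH M S)` with `r.1 = P(T̃)` on `J₀(M)` (Prelude `heckeEvalBar`) and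
  `chig r.2 ≠ 0` (hence `(iota.comp chig.rangeRestrict) r.2 ≠ 0`);
* `r' ∈ Rr (TJ M' S) (TH M' S)` with `r'.1 = P(T̃)` on `J₀(M')` and `r'.2 = 0`.

`exists_Rr_of_poly` is the bridge: every polynomial in the `T_ℓ`, `ℓ ∉ S`, gives an element of
`Rr` with components `(heckeEvalBar P, evalOut p)`.
-/

set_option autoImplicit false

open CongruenceSubgroup ModularCurve CuspForm
open scoped MatrixGroups
open ModularFormClass (qCoeff)
open Fermat.Agent.S30.H86 (Rr)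
open Fermat.Agent.S35.H90 (TJ TH GoodIdx)

namespace Fermat.Agent.S35.H47

/-- **Bridge to the pair ring.**  For a polynomial `p` in the variables `ℓ ∉ S` (all prime to
`N`) the pair `(p(T̃) on J₀(N), p(T) ∈ heckeAlgebra N 2 S)` lies in `Rr (TJ N S) (TH N S)`. -/
theorem exists_Rr_of_poly (N : ℕ) [NeZero N] (S : Finset ℕ)
    (hN : ∀ j : outPrimes (↑S : Set ℕ), ¬ ((j : Nat.Primes) : ℕ) ∣ N)
    (hc : HeckeOperatorsCommuteBar N) (p : MvPolynomial (outPrimes (↑S : Set ℕ)) ℤ) :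
    ∃ r ∈ Rr (TJ N S) (TH N S), r.2 = evalOut N (↑S : Set ℕ) hN p ∧
      ∀ x : JZero N, r.1 x = heckeEvalBar hc
        (MvPolynomial.rename ((↑) : outPrimes (↑S : Set ℕ) → Nat.Primes) p) x := by
  induction p using MvPolynomial.induction_on with
  | C a =>
    refine ⟨((a : ℤ) : AddMonoid.End (JZero N) × heckeAlgebra N 2 (↑S : Set ℕ)),
      intCast_mem _ a, ?_, fun x => ?_⟩
    · rw [← MvPolynomial.algebraMap_eq, AlgHom.commutes, eq_intCast]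
      rfl
    · rw [MvPolynomial.rename_C, heckeEvalBar_C, Module.End.intCast_apply]
      exact AddMonoid.End.intCast_apply a x
  | add p₁ p₂ ih₁ ih₂ =>
    obtain ⟨r₁, hr₁, h₁, h₁'⟩ := ih₁
    obtain ⟨r₂, hr₂, h₂, h₂'⟩ := ih₂
    refine ⟨r₁ + r₂, add_mem hr₁ hr₂, ?_, fun x => ?_⟩
    · rw [map_add, ← h₁, ← h₂]
      rfl
    · rw [map_add, map_add, LinearMap.add_apply, ← h₁', ← h₂']
      rfl
  | mul_X p₁ j ih =>
    obtain ⟨r₁, hr₁, h₁, h₁'⟩ := ih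
    let i : GoodIdx N S := ⟨((j : Nat.Primes) : ℕ), (j : Nat.Primes).2, hN j, j.2⟩
    refine ⟨r₁ * (TJ N S i, TH N S i), mul_mem hr₁ (Subring.subset_closure ⟨i, rfl⟩), ?_,
      fun x => ?_⟩
    · rw [map_mul, evalOut_X, ← h₁]
      rfl
    · have h2 : heckeEvalBar hc (MvPolynomial.X (j : Nat.Primes)) = heckeOperatorBar N j :=
        heckeEvalBar_heckeGen hc j
      rw [map_mul, MvPolynomial.rename_X, map_mul, h2, Module.End.mul_apply, ← h₁']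
      rfl

/-- (NP1) in polynomial-variable form: a polynomial `p` in the variables `ℓ ∉ S` with
`p(T) = 0` in `heckeAlgebra M' 2 S` and `chig (p(T)) ≠ 0` at level `M`. -/
theorem exists_newProj_core {M : ℕ} [NeZero M]
    {g : CuspForm (Gamma0 M) 2} (hg : g.IsNewform) (S : Finset ℕ)
    (hMS : ∀ q : ℕ, q.Prime → q ∣ M → q ∈ S)
    (chig : heckeAlgebra M 2 (↑S : Set ℕ) →+* ℂ)
    (hchig : ∀ (ℓ : ℕ) (hℓ : ℓ.Prime) (hℓM : ¬ ℓ ∣ M) (hℓS : ℓ ∉ (↑S : Set ℕ)),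
      chig (heckeAlgebra.T hℓ hℓM hℓS) = qCoeff g ℓ)
    (M' : ℕ) [NeZero M'] (hM' : M' ∣ M) (hne : M' ≠ M)
    (hNM : ∀ j : outPrimes (↑S : Set ℕ), ¬ ((j : Nat.Primes) : ℕ) ∣ M)
    (hNM' : ∀ j : outPrimes (↑S : Set ℕ), ¬ ((j : Nat.Primes) : ℕ) ∣ M') :
    ∃ p : MvPolynomial (outPrimes (↑S : Set ℕ)) ℤ,
      evalOut M' (↑S : Set ℕ) hNM' p = 0 ∧ chig (evalOut M (↑S : Set ℕ) hNM p) ≠ 0 := by
  obtain ⟨P, hP, hP0, h, hh, hne0⟩ := exists_newProj_poly_final hg S hMS chig hchig M' hM' hne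
  have hJ : {ℓ : Nat.Primes | (ℓ : ℕ) ∉ S} = outPrimes (↑S : Set ℕ) := by
    ext ℓ
    simp [outPrimes]
  rw [hJ, MvPolynomial.supported_eq_range_rename] at hP
  obtain ⟨p, rfl⟩ := hP
  have hP0' : heckeEvalForms M' 2
      (MvPolynomial.rename ((↑) : outPrimes (↑S : Set ℕ) → Nat.Primes) p) = 0 := hP0
  have hh' : ((h : heckeAlgebra M 2 (↑S : Set ℕ)) : Module.End ℂ (CuspForm (Gamma0 M) 2)) =
      ((heckeEvalForms M 2 (MvPolynomial.rename ((↑) : outPrimes (↑S : Set ℕ) → Nat.Primes) p) :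
        heckeAlgebra M 2 ∅) : Module.End ℂ (CuspForm (Gamma0 M) 2)) := hh
  refine ⟨p, ?_, ?_⟩
  · have h1 := coe_evalOut M' (↑S : Set ℕ) hNM' p
    rw [hP0'] at h1
    have h2 : ((evalOut M' (↑S : Set ℕ) hNM' p : heckeAlgebra M' 2 (↑S : Set ℕ)) :
        Module.End ℂ (CuspForm (Gamma0 M') 2)) = 0 := h1.trans (ZeroMemClass.coe_zero _)
    exact (ZeroMemClass.coe_eq_zero).1 h2
  · have h1 : h = evalOut M (↑S : Set ℕ) hNM p :=
      Subtype.ext (hh'.trans (coe_evalOut M (↑S : Set ℕ) hNM p).symm)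
    rw [← h1]
    exact hne0

/-- **(NP1) in the pair rings.**  For a newform `g` of level `M` with eigencharacter `chig` on
`heckeAlgebra M 2 S` (`S ⊇ primes(M)` finite) and a proper divisor `M'` of `M` there is a
polynomial `P` in the `T_ℓ`, `ℓ ∉ S`, such that `(P(T̃), P(T))` at level `M` is an element `r` of
`Rr (TJ M S) (TH M S)` with `chig r.2 ≠ 0`, and at level `M'` an element `r'` of
`Rr (TJ M' S) (TH M' S)` with `r'.2 = 0`. -/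
theorem exists_newProj_Rr {M : ℕ} [NeZero M]
    {g : CuspForm (Gamma0 M) 2} (hg : g.IsNewform) (S : Finset ℕ)
    (hMS : ∀ q : ℕ, q.Prime → q ∣ M → q ∈ S)
    (chig : heckeAlgebra M 2 (↑S : Set ℕ) →+* ℂ)
    (hchig : ∀ (ℓ : ℕ) (hℓ : ℓ.Prime) (hℓM : ¬ ℓ ∣ M) (hℓS : ℓ ∉ (↑S : Set ℕ)),
      chig (heckeAlgebra.T hℓ hℓM hℓS) = qCoeff g ℓ)
    (M' : ℕ) [NeZero M'] (hM' : M' ∣ M) (hne : M' ≠ M)
    (hcM : HeckeOperatorsCommuteBar M) (hcM' : HeckeOperatorsCommuteBar M') :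
    ∃ P : ModularCurve.HeckeAlg,
      P ∈ MvPolynomial.supported ℤ {ℓ : Nat.Primes | (ℓ : ℕ) ∉ S} ∧
      (∃ r ∈ Rr (TJ M S) (TH M S), chig r.2 ≠ 0 ∧
        ∀ x : JZero M, r.1 x = heckeEvalBar hcM P x) ∧
      (∃ r' ∈ Rr (TJ M' S) (TH M' S), r'.2 = 0 ∧
        ∀ y : JZero M', r'.1 y = heckeEvalBar hcM' P y) := by
  have hNM : ∀ j : outPrimes (↑S : Set ℕ), ¬ ((j : Nat.Primes) : ℕ) ∣ M := fun j hdvd =>
    j.2 (Finset.mem_coe.2 (hMS _ (j : Nat.Primes).2 hdvd))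
  have hNM' : ∀ j : outPrimes (↑S : Set ℕ), ¬ ((j : Nat.Primes) : ℕ) ∣ M' := fun j hdvd =>
    hNM j (hdvd.trans hM')
  obtain ⟨p, hp0, hpne⟩ := exists_newProj_core hg S hMS chig hchig M' hM' hne hNM hNM'
  obtain ⟨r, hr, hr2, hr1⟩ := exists_Rr_of_poly M S hNM hcM p
  obtain ⟨r', hr', hr'2, hr'1⟩ := exists_Rr_of_poly M' S hNM' hcM' p
  have hJ : outPrimes (↑S : Set ℕ) = {ℓ : Nat.Primes | (ℓ : ℕ) ∉ S} := by
    ext ℓ
    simp [outPrimes]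
  refine ⟨MvPolynomial.rename ((↑) : outPrimes (↑S : Set ℕ) → Nat.Primes) p, ?_,
    ⟨r, hr, ?_, hr1⟩, ⟨r', hr', ?_, hr'1⟩⟩
  · rw [← hJ, MvPolynomial.supported_eq_range_rename]
    exact ⟨p, rfl⟩
  · rw [hr2]
    exact hpne
  · rw [hr'2]
    exact hp0

/-- The same with the character `χ = iota ∘ chig` of the frozen S35 / of `KeyStatement`
(`iota` is automatically injective: `S35.H91.iota_comp_ne_zero`). -/
theorem exists_newProj_Rr_iota {M : ℕ} [NeZero M]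
    {g : CuspForm (Gamma0 M) 2} (hg : g.IsNewform) (S : Finset ℕ)
    (hMS : ∀ q : ℕ, q.Prime → q ∣ M → q ∈ S)
    (chig : heckeAlgebra M 2 (↑S : Set ℕ) →+* ℂ)
    (hchig : ∀ (ℓ : ℕ) (hℓ : ℓ.Prime) (hℓM : ¬ ℓ ∣ M) (hℓS : ℓ ∉ (↑S : Set ℕ)),
      chig (heckeAlgebra.T hℓ hℓM hℓS) = qCoeff g ℓ)
    {O' : Type*} [Ring O'] [CharZero O'] (iota : chig.range →+* O')
    (M' : ℕ) [NeZero M'] (hM' : M' ∣ M) (hne : M' ≠ M)
    (hcM : HeckeOperatorsCommuteBar M) (hcM' : HeckeOperatorsCommuteBar M') :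
    ∃ P : ModularCurve.HeckeAlg,
      P ∈ MvPolynomial.supported ℤ {ℓ : Nat.Primes | (ℓ : ℕ) ∉ S} ∧
      (∃ r ∈ Rr (TJ M S) (TH M S), (iota.comp chig.rangeRestrict) r.2 ≠ 0 ∧
        ∀ x : JZero M, r.1 x = heckeEvalBar hcM P x) ∧
      (∃ r' ∈ Rr (TJ M' S) (TH M' S), r'.2 = 0 ∧
        ∀ y : JZero M', r'.1 y = heckeEvalBar hcM' P y) := by
  obtain ⟨P, hP, ⟨r, hr, hr2, hr1⟩, h'⟩ :=
    exists_newProj_Rr hg S hMS chig hchig M' hM' hne hcM hcM'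
  exact ⟨P, hP, ⟨r, hr, Fermat.Agent.S35.H91.iota_comp_ne_zero (↑S : Set ℕ) chig iota hr2, hr1⟩, h'⟩

end Fermat.Agent.S35.H47
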