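import Fermat.Agent.S35.H47.NP1Rr
import Fermat.Agent.S35.H60.CommPoly
import Fermat.Agent.S35.H75.NP2

/-!
# S35-ALG: (NEWPROJ) from (NP1) + (COMM) + (NP2) — interface composite (helper47)

`exists_newProj_kill`: for a newform `g` of level `N q` (`q` prime, `q ∤ N`) with eigencharacter
`chig` on `heckeAlgebra (N q) 2 S`, `S ⊇ primes(N q)`, and a prime `lam`, there is
`r ∈ Rr (TJ (N q) S) (TH (N q) S)` with `chig r.2 ≠ 0` and an exponent `a` such that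
`α_* (lam ^ a • r.1 x) = 0 = β_* (lam ^ a • r.1 x)` for every `lam`-power torsion `x ∈ J₀(N q)`.
-/

set_option autoImplicit false

open CongruenceSubgroup ModularCurve CuspForm
open scoped MatrixGroups
open ModularFormClass (qCoeff)
open Fermat.Agent.S30.H86 (Rr)
open Fermat.Agent.S35.H90 (TJ TH GoodIdx)
open Fermat.Agent.S35.H60 (degAlpha degBeta)

namespace Fermat.Agent.S35.H47

theorem exists_newProj_kill (N q : ℕ) [NeZero N] [NeZero q] (hq : q.Prime) (hqN : ¬ q ∣ N)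
    {g : CuspForm (Gamma0 (N * q)) 2} (hg : g.IsNewform) (S : Finset ℕ)
    (hMS : ∀ ℓ : ℕ, ℓ.Prime → ℓ ∣ N * q → ℓ ∈ S)
    (chig : heckeAlgebra (N * q) 2 (↑S : Set ℕ) →+* ℂ)
    (hchig : ∀ (ℓ : ℕ) (hℓ : ℓ.Prime) (hℓM : ¬ ℓ ∣ N * q) (hℓS : ℓ ∉ (↑S : Set ℕ)),
      chig (heckeAlgebra.T hℓ hℓM hℓS) = qCoeff g ℓ)
    (lam : ℕ) (hlam : lam.Prime) :
    ∃ r ∈ Rr (TJ (N * q) S) (TH (N * q) S), chig r.2 ≠ 0 ∧ ∃ a : ℕ,
      ∀ (n : ℕ) (x : JZero (N * q)), lam ^ n • x = 0 →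
        degAlpha N q (lam ^ a • r.1 x) = 0 ∧ degBeta N q (lam ^ a • r.1 x) = 0 := by
  have hNne : N ≠ N * q := by
    intro h
    have h1 : N * 1 = N * q := by rw [mul_one]; exact h
    exact hq.one_lt.ne (Nat.eq_of_mul_eq_mul_left (Nat.pos_of_ne_zero (NeZero.ne N)) h1)
  obtain ⟨P, hP, ⟨r, hr, hχ, hr1⟩, ⟨r', hr', hr'0, hr'1⟩⟩ :=
    exists_newProj_Rr hg S hMS chig hchig N (Dvd.intro q rfl) hNne
      (Fermat.Agent.S29.H60.heckeOperatorsCommuteBar (N * q))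
      (Fermat.Agent.S29.H60.heckeOperatorsCommuteBar N)
  obtain ⟨a, ha⟩ := Fermat.Agent.S35.H75.exists_pow_smul_eq_zero_of_snd_eq_zero N lam hlam S
  have hqS : q ∈ S := hMS q hq (Dvd.intro_left N rfl)
  have hP' : P ∈ MvPolynomial.supported ℤ {ℓ : Nat.Primes | (ℓ : ℕ) ≠ q} := by
    refine MvPolynomial.supported_mono ?_ hP
    intro ℓ hℓ hℓq
    exact hℓ (hℓq ▸ hqS)
  refine ⟨r, hr, hχ, a, fun n x hx => ⟨?_, ?_⟩⟩
  · rw [map_nsmul, hr1, Fermat.Agent.S35.H60.degAlpha_heckeEvalBar N q hq P hP' x, ← hr'1]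
    refine ha r' hr' hr'0 n _ ?_
    rw [← map_nsmul, hx, map_zero]
  · rw [map_nsmul, hr1, Fermat.Agent.S35.H60.degBeta_heckeEvalBar N q hq hqN P hP' x, ← hr'1]
    refine ha r' hr' hr'0 n _ ?_
    rw [← map_nsmul, hx, map_zero]

/-- (NEWPROJ) with the exponent absorbed into `r` (replace `r` by `lam ^ a • r`): the element
`r` of the pair ring kills nothing of `g` (`chig r.2 ≠ 0`) and maps all `lam`-power torsion of
`J₀(N q)` into the `q`-new part `ker α_* ∩ ker β_*`. -/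
theorem exists_newProj_new (N q : ℕ) [NeZero N] [NeZero q] (hq : q.Prime) (hqN : ¬ q ∣ N)
    {g : CuspForm (Gamma0 (N * q)) 2} (hg : g.IsNewform) (S : Finset ℕ)
    (hMS : ∀ ℓ : ℕ, ℓ.Prime → ℓ ∣ N * q → ℓ ∈ S)
    (chig : heckeAlgebra (N * q) 2 (↑S : Set ℕ) →+* ℂ)
    (hchig : ∀ (ℓ : ℕ) (hℓ : ℓ.Prime) (hℓM : ¬ ℓ ∣ N * q) (hℓS : ℓ ∉ (↑S : Set ℕ)),
      chig (heckeAlgebra.T hℓ hℓM hℓS) = qCoeff g ℓ)
    (lam : ℕ) (hlam : lam.Prime) :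
    ∃ r ∈ Rr (TJ (N * q) S) (TH (N * q) S), chig r.2 ≠ 0 ∧
      ∀ (n : ℕ) (x : JZero (N * q)), lam ^ n • x = 0 →
        degAlpha N q (r.1 x) = 0 ∧ degBeta N q (r.1 x) = 0 := by
  obtain ⟨r, hr, hχ, a, ha⟩ := exists_newProj_kill N q hq hqN hg S hMS chig hchig lam hlam
  refine ⟨(lam ^ a) • r, nsmul_mem hr _, ?_, fun n x hx => ?_⟩
  · have h1 : ((lam ^ a) • r).2 = (lam ^ a) • r.2 := rfl
    rw [h1, map_nsmul]
    exact smul_ne_zero (pow_ne_zero a hlam.ne_zero) hχ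
  · have h1 : ((lam ^ a) • r).1 x = (lam ^ a) • r.1 x := rfl
    rw [h1]
    exact ha n x hx

/-- (NEWPROJ) for the character `χ = iota ∘ chig` of the frozen S35 statement. -/
theorem exists_newProj_new_iota (N q : ℕ) [NeZero N] [NeZero q] (hq : q.Prime) (hqN : ¬ q ∣ N)
    {g : CuspForm (Gamma0 (N * q)) 2} (hg : g.IsNewform) (S : Finset ℕ)
    (hMS : ∀ ℓ : ℕ, ℓ.Prime → ℓ ∣ N * q → ℓ ∈ S)
    (chig : heckeAlgebra (N * q) 2 (↑S : Set ℕ) →+* ℂ)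
    (hchig : ∀ (ℓ : ℕ) (hℓ : ℓ.Prime) (hℓM : ¬ ℓ ∣ N * q) (hℓS : ℓ ∉ (↑S : Set ℕ)),
      chig (heckeAlgebra.T hℓ hℓM hℓS) = qCoeff g ℓ)
    {O' : Type*} [Ring O'] [CharZero O'] (iota : chig.range →+* O')
    (lam : ℕ) (hlam : lam.Prime) :
    ∃ r ∈ Rr (TJ (N * q) S) (TH (N * q) S), (iota.comp chig.rangeRestrict) r.2 ≠ 0 ∧
      ∀ (n : ℕ) (x : JZero (N * q)), lam ^ n • x = 0 →
        degAlpha N q (r.1 x) = 0 ∧ degBeta N q (r.1 x) = 0 := by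
  obtain ⟨r, hr, hχ, h⟩ := exists_newProj_new N q hq hqN hg S hMS chig hchig lam hlam
  exact ⟨r, hr, Fermat.Agent.S35.H91.iota_comp_ne_zero (↑S : Set ℕ) chig iota hχ, h⟩

end Fermat.Agent.S35.H47
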