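import Fermat.Agent.S35.H47.EigenFunctional
import Fermat.Agent.S31.H75.HeckeAction

/-!
# S35-ALG (NP1), helper47: every character of the anemic Hecke algebra occurs

`N` a level, `S ⊇ primes(N)`, `χ : heckeAlgebra N 2 S →+* ℂ` ANY ring homomorphism.

* `exists_parabolic_eigenvector` (EV): there is a nonzero parabolic `v : Γ₀(N) → ℂ` with
  `heckeHom N ℓ ℂ v = χ(T_ℓ) • v` for all primes `ℓ ∤ N`, `ℓ ∉ S`;
* `exists_eigenform_of_ringHom` (OCC): there is a normalised eigenform `g` of level `N` with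
  `a_ℓ(g) = χ(T_ℓ)` for all primes `ℓ ∤ N`, `ℓ ∉ S`.

Proof of (EV): the Hecke algebra acts faithfully on the lattice `Lat N = Hom_par(Γ₀(N), ℤ)`
(`S31.H75.heckeAction`), hence by transposes on `Hom(Lat N, ℤ)`; on the span `E` of the evaluations
`ev_γ` the eigen-functional lemma gives `Θ : E → ℂ`, and `v γ := Θ (ev_γ)`.
-/

set_option autoImplicit false

open CongruenceSubgroup ModularCurve ModularCurve.Period CuspForm
open scoped MatrixGroups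
open Fermat.Agent.S16.H75 (heckeHom formOp)
open Fermat.Agent.S31.H75 (Lat heckeAction heckeAction_T heckeAction_injective)
open ModularFormClass (qCoeff)

namespace Fermat.Agent.S35.H47

/-- The transpose of a commutative ring of endomorphisms, acting on the dual. -/
noncomputable def transposeHom {R L : Type*} [CommRing R] [AddCommGroup L]
    (ρ : R →+* Module.End ℤ L) : R →+* Module.End ℤ (Module.Dual ℤ L) where
  toFun r := (ρ r).dualMap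
  map_one' := by
    refine LinearMap.ext fun φ => LinearMap.ext fun ψ => ?_
    rw [LinearMap.dualMap_apply, map_one]
    rfl
  map_mul' r s := by
    refine LinearMap.ext fun φ => LinearMap.ext fun ψ => ?_
    rw [mul_comm r s, LinearMap.dualMap_apply, map_mul]
    rfl
  map_zero' := by
    refine LinearMap.ext fun φ => LinearMap.ext fun ψ => ?_
    rw [LinearMap.dualMap_apply, map_zero]
    exact map_zero φ
  map_add' r s := by
    refine LinearMap.ext fun φ => LinearMap.ext fun ψ => ?_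
    rw [LinearMap.dualMap_apply, map_add]
    exact map_add φ _ _

theorem transposeHom_apply {R L : Type*} [CommRing R] [AddCommGroup L]
    (ρ : R →+* Module.End ℤ L) (r : R) (φ : Module.Dual ℤ L) (ψ : L) :
    transposeHom ρ r φ ψ = φ (ρ r ψ) := rfl

/-- The transposed Hecke action on the dual of the lattice. -/
noncomputable def dualAction (N : ℕ) [NeZero N] (S : Set ℕ)
    (hNS : ∀ q : ℕ, q.Prime → q ∣ N → q ∈ S) :
    heckeAlgebra N 2 S →+* Module.End ℤ (Module.Dual ℤ (Lat N)) :=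
  transposeHom (heckeAction N S hNS).toRingHom

theorem dualAction_apply (N : ℕ) [NeZero N] (S : Set ℕ)
    (hNS : ∀ q : ℕ, q.Prime → q ∣ N → q ∈ S) (r : heckeAlgebra N 2 S)
    (φ : Module.Dual ℤ (Lat N)) (ψ : Lat N) :
    dualAction N S hNS r φ ψ = φ (heckeAction N S hNS r ψ) := rfl

/-- The evaluation `γ ↦ (ψ ↦ ψ γ)`. -/
noncomputable def evHom (N : ℕ) : Additive (Gamma0 N) →+ Module.Dual ℤ (Lat N) where
  toFun γ :=
    { toFun := fun ψ => (ψ : Additive (Gamma0 N) →+ ℤ) γ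
      map_add' := fun _ _ => rfl
      map_smul' := fun _ _ => rfl }
  map_zero' := LinearMap.ext fun ψ => map_zero (ψ : Additive (Gamma0 N) →+ ℤ)
  map_add' a b := LinearMap.ext fun ψ => map_add (ψ : Additive (Gamma0 N) →+ ℤ) a b

theorem evHom_apply (N : ℕ) (γ : Additive (Gamma0 N)) (ψ : Lat N) :
    evHom N γ ψ = (ψ : Additive (Gamma0 N) →+ ℤ) γ := rfl

/-- **(EV)**: every character of the anemic Hecke algebra occurs in `Hom_par(Γ₀(N), ℂ)`. -/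
theorem exists_parabolic_eigenvector (N : ℕ) [NeZero N] (S : Set ℕ)
    (hNS : ∀ q : ℕ, q.Prime → q ∣ N → q ∈ S) (χ : heckeAlgebra N 2 S →+* ℂ) :
    ∃ v : Additive (Gamma0 N) →+ ℂ, v ≠ 0 ∧ IsParabolicHom (Gamma0 N) v ∧
      ∀ (ℓ : ℕ) (hℓ : ℓ.Prime) (hℓN : ¬ ℓ ∣ N) (hℓS : ℓ ∉ S),
        heckeHom N (⟨ℓ, hℓ⟩ : Nat.Primes) ℂ v = χ (heckeAlgebra.T hℓ hℓN hℓS) • v := by
  classical
  let modR : Module (heckeAlgebra N 2 S) (Module.Dual ℤ (Lat N)) :=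
    Module.compHom (Module.Dual ℤ (Lat N)) (dualAction N S hNS)
  have hsmul : ∀ (r : heckeAlgebra N 2 S) (φ : Module.Dual ℤ (Lat N)) (ψ : Lat N),
      (r • φ) ψ = φ (heckeAction N S hNS r ψ) := fun r φ ψ => rfl
  have hfree : Module.Free ℤ (Lat N) := Module.free_of_finite_type_torsion_free'
  have hfinD : Module.Finite ℤ (Module.Dual ℤ (Lat N)) := inferInstance
  have hnoeth : IsNoetherian ℤ (Module.Dual ℤ (Lat N)) := inferInstance
  -- the annihilator of the evaluations is trivial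
  have hann : ∀ r : heckeAlgebra N 2 S, (∀ γ : Additive (Gamma0 N), r • evHom N γ = 0) →
      χ r = 0 := by
    intro r hr
    have h0 : heckeAction N S hNS r = 0 := by
      refine LinearMap.ext fun ψ => Subtype.ext (AddMonoidHom.ext fun γ => ?_)
      have h3 : (r • evHom N γ) ψ = 0 := by rw [hr γ]; rfl
      rw [hsmul, evHom_apply] at h3
      exact h3
    have hr0 : r = 0 := heckeAction_injective hNS (by rw [h0, map_zero])
    rw [hr0, map_zero]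
  obtain ⟨Θ, ⟨γ₀, hγ₀⟩, hΘ⟩ := exists_functional_of_span hnoeth (evHom N) χ hann
  refine ⟨Θ.comp (evHom N), ?_, ?_, ?_⟩
  · -- nonzero
    intro hv
    exact hγ₀ (DFunLike.congr_fun hv γ₀)
  · -- parabolic
    intro γ hγ
    have h1 : evHom N (Additive.ofMul γ) = 0 := LinearMap.ext fun ψ => ψ.2 γ hγ
    show Θ (evHom N (Additive.ofMul γ)) = 0
    rw [h1, map_zero]
  · intro ℓ hℓ hℓN hℓS
    refine (Fermat.Agent.S16.H75.heckeHom_comp N (⟨ℓ, hℓ⟩ : Nat.Primes) Θ (evHom N)).trans ?_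
    have key : ∀ γ, heckeHom N (⟨ℓ, hℓ⟩ : Nat.Primes) (Module.Dual ℤ (Lat N)) (evHom N) γ =
        (heckeAlgebra.T hℓ hℓN hℓS : heckeAlgebra N 2 S) • evHom N γ := by
      intro γ
      refine LinearMap.ext fun ψ => ?_
      let eψ : Module.Dual ℤ (Lat N) →+ ℤ :=
        { toFun := fun e => e ψ
          map_zero' := rfl
          map_add' := fun _ _ => rfl }
      have h1 : heckeHom N (⟨ℓ, hℓ⟩ : Nat.Primes) ℤ (eψ.comp (evHom N)) =
          eψ.comp (heckeHom N (⟨ℓ, hℓ⟩ : Nat.Primes) (Module.Dual ℤ (Lat N)) (evHom N)) :=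
        Fermat.Agent.S16.H75.heckeHom_comp N _ eψ (evHom N)
      have h2 : eψ.comp (evHom N) = (ψ : Additive (Gamma0 N) →+ ℤ) :=
        AddMonoidHom.ext fun _ => rfl
      have h3 := DFunLike.congr_fun h1 γ
      rw [h2] at h3
      have h4 := heckeAction_T hNS hℓ hℓN hℓS ψ
      have h5 : eψ (heckeHom N (⟨ℓ, hℓ⟩ : Nat.Primes) (Module.Dual ℤ (Lat N)) (evHom N) γ) =
          heckeHom N (⟨ℓ, hℓ⟩ : Nat.Primes) ℤ (ψ : Additive (Gamma0 N) →+ ℤ) γ := h3.symm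
      show eψ (heckeHom N (⟨ℓ, hℓ⟩ : Nat.Primes) (Module.Dual ℤ (Lat N)) (evHom N) γ) = _
      rw [h5, ← h4, hsmul, evHom_apply]
    refine AddMonoidHom.ext fun γ => ?_
    show Θ (heckeHom N (⟨ℓ, hℓ⟩ : Nat.Primes) (Module.Dual ℤ (Lat N)) (evHom N) γ) =
      χ _ • Θ (evHom N γ)
    rw [key, hΘ, smul_eq_mul]

open Fermat.Agent.S41.H40 (formOp_of_not_dvd formOp_of_dvd formOp_commute formOp_comm_apply)

/-- A nonzero parabolic `v : Γ₀(N) → ℂ`, eigen for `heckeHom N ℓ ℂ` with eigenvalue `lam ℓ` for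
`ℓ ∈ I`, gives a normalised eigenform `g` of level `N` with `a_ℓ(g) = lam ℓ` for `ℓ ∈ I`.
(`S41.H40.exists_eigenform_of_hom` without the `U_q` clause.) -/
theorem exists_eigenform_of_parabolic (N : ℕ) [NeZero N] (I : Set Nat.Primes)
    (v : Additive (Gamma0 N) →+ ℂ) (hv0 : v ≠ 0) (hvpar : IsParabolicHom (Gamma0 N) v)
    (lam : Nat.Primes → ℂ) (hlam : ∀ ℓ ∈ I, heckeHom N ℓ ℂ v = lam ℓ • v) :
    ∃ g : CuspForm (Gamma0 N) 2, g.IsNormalizedEigenform ∧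
      ∀ ℓ ∈ I, qCoeff g (ℓ : ℕ) = lam ℓ := by
  classical
  obtain ⟨hinj, hrange⟩ := Fermat.Agent.S21.result N
  have hvmem : v ∈ LinearMap.range (periodHomPair N) := by
    rw [hrange]; exact hvpar
  obtain ⟨⟨g₁, g₂⟩, hg⟩ := hvmem
  -- the eigen-equations pass to the two forms
  have heig : ∀ ℓ ∈ I, formOp N ℓ g₁ = lam ℓ • g₁ ∧ formOp N ℓ g₂ = lam ℓ • g₂ := by
    intro ℓ hℓ
    have h1 : periodHomPair N (formOp N ℓ g₁, formOp N ℓ g₂) =
        periodHomPair N (lam ℓ • (g₁, g₂)) := by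
      rw [Fermat.Agent.S16.H75.periodHomPair_formOp, hg, hlam ℓ hℓ, map_smul, hg]
    have h2 := hinj h1
    rw [Prod.smul_mk] at h2
    exact ⟨(Prod.mk.inj h2).1, (Prod.mk.inj h2).2⟩
  -- the stable subspace
  let E : Submodule ℂ (CuspForm (Gamma0 N) 2) :=
    { carrier := {g | ∀ ℓ ∈ I, formOp N ℓ g = lam ℓ • g}
      zero_mem' := fun ℓ _ => by rw [map_zero, smul_zero]
      add_mem' := by
        intro a b ha hb ℓ hℓ
        rw [map_add, ha ℓ hℓ, hb ℓ hℓ, smul_add]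
      smul_mem' := by
        intro c a ha ℓ hℓ
        rw [map_smul, ha ℓ hℓ, smul_comm] }
  have hEmem : ∀ g, g ∈ E ↔ ∀ ℓ ∈ I, formOp N ℓ g = lam ℓ • g := fun _ => Iff.rfl
  have hne : g₁ ≠ 0 ∨ g₂ ≠ 0 := by
    by_contra hcon
    rw [not_or, not_not, not_not] at hcon
    apply hv0
    rw [← hg, hcon.1, hcon.2]
    exact map_zero _
  have hEbot : E ≠ ⊥ := by
    rcases hne with h | h
    · intro hbot
      have : g₁ ∈ E := (hEmem g₁).2 fun ℓ hℓ => (heig ℓ hℓ).1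
      rw [hbot] at this
      exact h ((Submodule.mem_bot ℂ).1 this)
    · intro hbot
      have : g₂ ∈ E := (hEmem g₂).2 fun ℓ hℓ => (heig ℓ hℓ).2
      rw [hbot] at this
      exact h ((Submodule.mem_bot ℂ).1 this)
  have hfin : Module.Finite ℂ (CuspForm (Gamma0 N) 2) :=
    (Fermat.Agent.S21.H21.finrank_cuspForm_le N).1
  let T : Set (Module.End ℂ (CuspForm (Gamma0 N) 2)) :=
    Set.range (fun ℓ : Nat.Primes => formOp N ℓ)
  have hT : ∀ a ∈ T, ∀ b ∈ T, Commute a b := by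
    rintro a ⟨ℓ, rfl⟩ b ⟨ℓ', rfl⟩
    exact formOp_commute N ℓ ℓ'
  have hstab : ∀ a ∈ T, ∀ w ∈ E, a w ∈ E := by
    rintro a ⟨ℓ', rfl⟩ w hw
    rw [hEmem] at hw ⊢
    intro ℓ hℓ
    show formOp N ℓ (formOp N ℓ' w) = lam ℓ • formOp N ℓ' w
    rw [formOp_comm_apply, hw ℓ hℓ, map_smul]
  obtain ⟨g, hgE, hg0, hgeig⟩ :=
    Fermat.Agent.S49.exists_common_eigenvector T hT (Module.finrank ℂ E) E rfl hEbot hstab
  have hμex : ∀ ℓ : Nat.Primes, ∃ μ : ℂ, formOp N ℓ g = μ • g := fun ℓ => hgeig _ ⟨ℓ, rfl⟩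
  choose μ hμ using hμex
  rw [hEmem] at hgE
  have hμI : ∀ ℓ ∈ I, μ ℓ = lam ℓ := by
    intro ℓ hℓ
    have h1 : (μ ℓ - lam ℓ) • g = 0 := by
      rw [sub_smul, ← hμ ℓ, hgE ℓ hℓ, sub_self]
    rcases smul_eq_zero.1 h1 with h | h
    · exact sub_eq_zero.1 h
    · exact absurd h hg0
  let μ' : ℕ → ℂ := fun n => if h : n.Prime then μ ⟨n, h⟩ else 0
  have hμ' : ∀ (ℓ : ℕ) (hℓ : ℓ.Prime), μ' ℓ = μ ⟨ℓ, hℓ⟩ := fun ℓ hℓ => dif_pos hℓ
  obtain ⟨f, hf, hfμ⟩ := Fermat.Agent.S49.exists_normalized_of_eigenvector g hg0 μ'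
    (fun ℓ hℓ hℓM => by
      rw [hμ' ℓ hℓ, ← formOp_of_not_dvd hℓ hℓM]; exact hμ ⟨ℓ, hℓ⟩)
    (fun ℓ hℓ hℓM => by
      rw [hμ' ℓ hℓ, ← formOp_of_dvd hℓ hℓM]; exact hμ ⟨ℓ, hℓ⟩)
  refine ⟨f, hf, fun ℓ hℓ => ?_⟩
  rw [hfμ ℓ ℓ.2, hμ' ℓ ℓ.2]
  exact hμI ℓ hℓ

/-- **(OCC)**: every character of the anemic Hecke algebra is the eigensystem of a normalised
eigenform. -/
theorem exists_eigenform_of_ringHom (N : ℕ) [NeZero N] (S : Set ℕ)
    (hNS : ∀ q : ℕ, q.Prime → q ∣ N → q ∈ S) (χ : heckeAlgebra N 2 S →+* ℂ) :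
    ∃ g : CuspForm (Gamma0 N) 2, g.IsNormalizedEigenform ∧
      ∀ (ℓ : ℕ) (hℓ : ℓ.Prime) (hℓN : ¬ ℓ ∣ N) (hℓS : ℓ ∉ S),
        qCoeff g ℓ = χ (heckeAlgebra.T hℓ hℓN hℓS) := by
  classical
  obtain ⟨v, hv0, hvpar, hv⟩ := exists_parabolic_eigenvector N S hNS χ
  let I : Set Nat.Primes := {ℓ | ¬ (ℓ : ℕ) ∣ N ∧ (ℓ : ℕ) ∉ S}
  let lam : Nat.Primes → ℂ := fun ℓ =>
    if h : ¬ (ℓ : ℕ) ∣ N ∧ (ℓ : ℕ) ∉ S then χ (heckeAlgebra.T ℓ.2 h.1 h.2) else 0
  have hlam : ∀ ℓ ∈ I, heckeHom N ℓ ℂ v = lam ℓ • v := by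
    intro ℓ hℓ
    have h1 : lam ℓ = χ (heckeAlgebra.T ℓ.2 hℓ.1 hℓ.2) := dif_pos hℓ
    rw [h1]
    exact hv ℓ ℓ.2 hℓ.1 hℓ.2
  obtain ⟨g, hg, hgI⟩ := exists_eigenform_of_parabolic N I v hv0 hvpar lam hlam
  refine ⟨g, hg, fun ℓ hℓ hℓN hℓS => ?_⟩
  have h1 := hgI ⟨ℓ, hℓ⟩ ⟨hℓN, hℓS⟩
  have h2 : lam ⟨ℓ, hℓ⟩ = χ (heckeAlgebra.T hℓ hℓN hℓS) := dif_pos ⟨hℓN, hℓS⟩
  rw [← h2]
  exact h1

end Fermat.Agent.S35.H47
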